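import Fermat.Agent.JacRep.Dict.ToBundle

/-!
# Rigidifications and the trivial module on bundles of modules

A module trivial along the base section gives a rigidified bundle and conversely
(`isRigidified_bundleOf`, `rigidified_of_isRigidified`): restriction to the base section is
pullback along the base character of the first chart (`rigIso`).  The bundle of the structure
sheaf is trivial (`unit_trivial_bundleOf`).
-/

set_option autoImplicit false
set_option linter.style.haveILetI false

noncomputable section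

open CategoryTheory CategoryTheory.Limits AlgebraicGeometry AlgebraicGeometry.RelPicard
  NeronModelInfra

universe u

namespace FLTAgent.JacRep.Dict

/-- A spanning semilinear map over a surjective ring map to the ring is surjective. -/
theorem exists_surjective_of_adj {B B' : Type u} [CommRing B] [CommRing B'] {φ : B →+* B'}
    {F : SpecMod B ⥤ SpecMod B'} (adj : F ⊣ Scheme.Modules.pushforward (Spec.map (CommRingCat.ofHom φ)))
    (N : SpecMod B) [Qc N] [Qc (F.obj N)] (hφ : Function.Surjective φ)
    (ψ : Sec (F.obj N) ≃ₗ[B'] B') : ∃ f : Sec N →ₛₗ[φ] B', Function.Surjective f := by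
  refine ⟨ψ.toLinearMap.comp (adjSec adj N), fun r => ?_⟩
  suffices h : ∀ y ∈ Submodule.span B' (Set.range (adjSec adj N)), ∃ m, adjSec adj N m = y by
    obtain ⟨m, hm⟩ := h (ψ.symm r) (span_adjSec adj N ▸ Submodule.mem_top)
    exact ⟨m, by rw [LinearMap.comp_apply, hm, LinearEquiv.coe_coe, LinearEquiv.apply_symm_apply]⟩
  intro y hy
  induction hy using Submodule.span_induction with
  | mem z hz => exact hz
  | zero => exact ⟨0, map_zero _⟩
  | add a b _ _ ha hb =>
    obtain ⟨x, rfl⟩ := ha
    obtain ⟨y, rfl⟩ := hb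
    exact ⟨x + y, map_add _ _ _⟩
  | smul t a _ ha =>
    obtain ⟨x, rfl⟩ := ha
    obtain ⟨b, rfl⟩ := hφ t
    exact ⟨b • x, LinearMap.map_smulₛₗ _ _ _⟩

variable {k : Type u} [Field k] {Cv : Cover k} {C : Scheme.{u}}
  {c : C ⟶ Spec (CommRingCat.of k)} {ε : SchemeHomOver (𝟙 (Spec (CommRingCat.of k))) c}
  (W : Realization Cv c ε) {R : Type u} [CommRing R] [Algebra k R]

/-- The base point of the first chart. -/
abbrev baseMap (Cv : Cover k) (R : Type u) [CommRing R] [Algebra k R] :
    Spec (CommRingCat.of R) ⟶ Spec (CommRingCat.of (Cv.B₀ R)) :=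
  Spec.map (CommRingCat.ofHom (Cv.baseB R))

/-- Restriction to the base point. -/
def rigIso (L : (pullback c (specStr k R)).Modules) :
    (Scheme.Modules.pullback (baseMap Cv R)).obj (L.restrict (q₀ W R)) ≅
      (Scheme.Modules.pullback (rigSection c (specStr k R) ε)).obj L :=
  (Scheme.Modules.pullback (baseMap Cv R)).mapIso
      ((Scheme.Modules.restrictFunctorIsoPullback (q₀ W R)).app L) ≪≫
    (Scheme.Modules.pullbackComp _ _).app L ≪≫
    (Scheme.Modules.pullbackCongr (baseB_q₀ W R)).app L

theorem isRigidified_bundleOf {L : (pullback c (specStr k R)).Modules}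
    (hL : Scheme.Modules.IsInvertible L)
    (hrig : Nonempty ((Scheme.Modules.pullback (rigSection c (specStr k R) ε)).obj L ≅
      SheafOfModules.unit (Spec (CommRingCat.of R)).ringCatSheaf)) :
    (bundleOf W R L hL).IsRigidified := by
  obtain ⟨e⟩ := hrig
  haveI := qc_of_invertible (invertible_restrict (q₀ W R) hL)
  haveI := qc_of_invertible ((invertible_restrict (q₀ W R) hL).pullback (baseMap Cv R))
  let adj := Scheme.Modules.pullbackPushforwardAdjunction (baseMap Cv R)
  exact exists_surjective_of_adj adj (L.restrict (q₀ W R)) (fun r => ⟨_, (Cv.baseB_surjective r).choose_spec⟩)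
    ((secIso (M := (Scheme.Modules.pullback (baseMap Cv R)).obj (L.restrict (q₀ W R)))
      (N := unitMod R) (rigIso W L ≪≫ e)).trans secUnit)

theorem rigidified_of_isRigidified {L : (pullback c (specStr k R)).Modules}
    (hL : Scheme.Modules.IsInvertible L) (h : (bundleOf W R L hL).IsRigidified) :
    Nonempty ((Scheme.Modules.pullback (rigSection c (specStr k R) ε)).obj L ≅
      SheafOfModules.unit (Spec (CommRingCat.of R)).ringCatSheaf) := by
  obtain ⟨f, hf⟩ := h
  haveI := qc_of_invertible (invertible_restrict (q₀ W R) hL)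
  have hb := (invertible_restrict (q₀ W R) hL).pullback (baseMap Cv R)
  haveI := qc_of_invertible hb
  haveI := invertible_sec (invertible_restrict (q₀ W R) hL)
  haveI := invertible_sec hb
  let adj := Scheme.Modules.pullbackPushforwardAdjunction (baseMap Cv R)
  obtain ⟨g, hg⟩ := Invert.exists_lift (adjSec adj (L.restrict (q₀ W R)))
    (span_adjSec adj _) (f : Sec₀ W R L →ₛₗ[Cv.baseB R] R)
  have hgs : Function.Surjective g := fun r => by
    obtain ⟨m, hm⟩ := hf r
    exact ⟨_, (hg m).trans hm⟩
  let ψ := LinearEquiv.ofBijective g (Module.Invertible.bijective_of_surjective hgs)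
  exact ⟨(rigIso W L).symm ≪≫ isoOfSec (N := unitMod R) (ψ.trans secUnit.symm)⟩

section Unit

variable {B : Type u} [CommRing B] {X : Scheme.{u}}

/-- The structure sheaf. -/
abbrev unitX (X : Scheme.{u}) : X.Modules := SheafOfModules.unit.{u} X.ringCatSheaf

/-- The unit section. -/
def oneSec (q : Spec (CommRingCat.of B) ⟶ X) [IsOpenImmersion q] :
    Sec ((unitX X).restrict q) :=
  (secX q (unitX X)).symm (1 : Γ(X, q ''ᵁ ⊤))

/-- The trivialisation of the structure sheaf on a chart. -/
def unitEquiv (q : Spec (CommRingCat.of B) ⟶ X) [IsOpenImmersion q] :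
    Sec ((unitX X).restrict q) ≃ₗ[B] B :=
  (secIso (N := unitMod B) (Scheme.Modules.restrictUnitIso q)).trans secUnit

theorem unitEquiv_oneSec (q : Spec (CommRingCat.of B) ⟶ X) [IsOpenImmersion q] :
    unitEquiv q (oneSec q) = 1 := by
  show secUnit (secIso (N := unitMod B) (Scheme.Modules.restrictUnitIso q) (oneSec q)) = 1
  have h1 : secIso (N := unitMod B) (Scheme.Modules.restrictUnitIso q) (oneSec q) =
      toSec (unitMod B) (1 : Γ(Spec (CommRingCat.of B), ⊤)) :=
    congrArg (toSec (unitMod B)) (map_one (q.appIso ⊤).hom.hom)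
  rw [h1, ← LinearEquiv.eq_symm_apply]
  exact congrArg (toSec (unitMod B))
    (map_one (StructureSheaf.toOpen B (⊤ : (Spec (CommRingCat.of B)).Opens)).hom).symm

theorem unitEquiv_chartRes {B' : Type u} [CommRing B'] (φ : B →+* B')
    [IsOpenImmersion (Spec.map (CommRingCat.ofHom φ))] (q : Spec (CommRingCat.of B) ⟶ X)
    [IsOpenImmersion q] (q' : Spec (CommRingCat.of B') ⟶ X) [IsOpenImmersion q']
    (h : Spec.map (CommRingCat.ofHom φ) ≫ q = q')
    (m : Sec ((unitX X).restrict q)) :
    unitEquiv q' (chartRes φ q q' h (unitX X) m) = φ (unitEquiv q m) := by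
  have hm : m = unitEquiv q m • oneSec q := by
    apply (unitEquiv q).injective
    rw [map_smul, unitEquiv_oneSec, smul_eq_mul, mul_one]
  have hone : chartRes φ q q' h (unitX X) (oneSec q) = oneSec q' := by
    apply (secX q' _).injective
    refine (secX_chartRes φ q q' h (unitX X) _).trans ?_
    exact map_one (X.presheaf.map (homOfLE (image_le_image φ q q' h)).op).hom
  conv_lhs => rw [hm]
  rw [LinearMap.map_smulₛₗ, hone, map_smul, unitEquiv_oneSec, smul_eq_mul, mul_one]

theorem unit_trivial_bundleOf (R : Type u) [CommRing R] [Algebra k R] :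
    let E := bundleOf W R (SheafOfModules.unit.{u} (pullback c (specStr k R)).ringCatSheaf)
      (Scheme.Modules.isInvertible_unit _)
    ∃ (e₀ : E.M₀ ≃ₗ[Cv.B₀ R] Cv.B₀ R) (e₁ : E.M₁ ≃ₗ[Cv.B₁ R] Cv.B₁ R) (e : E.M ≃ₗ[Cv.B R] Cv.B R),
      (∀ m, e (E.ι₀ m) = Cv.resB₀ R (e₀ m)) ∧ ∀ m, e (E.ι₁ m) = Cv.resB₁ R (e₁ m) := by
  haveI := isOpenImmersion_resB₀ R W
  haveI := isOpenImmersion_resB₁ R W
  exact ⟨unitEquiv (q₀ W R), unitEquiv (q₁ W R), unitEquiv (qA W R),
    fun m => unitEquiv_chartRes (Cv.resB₀ R) _ _ (resB₀_q₀ W R) m,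
    fun m => unitEquiv_chartRes (Cv.resB₁ R) _ _ (resB₁_q₁ W R) m⟩

end Unit

end FLTAgent.JacRep.Dict
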