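import Fermat.Agent.JacRep.Dict.ToBundle

/-!
# Pullback of modules is pullback of bundles

`isPullback_bundleOf`: along a map of coefficient algebras `R → S` the bundle of the pulled back
module is a pullback of the bundle, since the sections over the charts pull back along the
cartesian squares compatibly with restriction (`squareSec_natural`).
-/

set_option autoImplicit false
set_option linter.style.haveILetI false

noncomputable section

open CategoryTheory CategoryTheory.Limits AlgebraicGeometry AlgebraicGeometry.RelPicard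
  NeronModelInfra Opposite

universe u

namespace FLTAgent.JacRep.Dict

/-- Restriction of sections commutes with pullback. -/
theorem squareSec_natural {R₀ R₁ S₀ S₁ : Type u} [CommRing R₀] [CommRing R₁] [CommRing S₀]
    [CommRing S₁] {X Y : Scheme.{u}} (φ₀ : R₀ →+* S₀) (φ₁ : R₁ →+* S₁)
    (q : Spec (CommRingCat.of R₀) ⟶ X) [IsOpenImmersion q]
    (p : Spec (CommRingCat.of R₁) ⟶ X) [IsOpenImmersion p]
    (q' : Spec (CommRingCat.of S₀) ⟶ Y) [IsOpenImmersion q']
    (p' : Spec (CommRingCat.of S₁) ⟶ Y) [IsOpenImmersion p'] (g : Y ⟶ X)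
    (h₀ : Spec.map (CommRingCat.ofHom φ₀) ≫ q = q' ≫ g)
    (h₁ : Spec.map (CommRingCat.ofHom φ₁) ≫ p = p' ≫ g) (N : X.Modules)
    (hle : p ''ᵁ ⊤ ≤ q ''ᵁ ⊤) (hle' : p' ''ᵁ ⊤ ≤ q' ''ᵁ ⊤)
    (x : Sec (N.restrict q)) (y : Sec (N.restrict p))
    (hy : secX p N y = res N hle (secX q N x)) :
    secX p' _ (squareSec φ₁ p p' g h₁ N y) =
      res _ hle' (secX q' _ (squareSec φ₀ q q' g h₀ N x)) := by
  rw [secX_squareSec, secX_squareSec, hy]
  refine (congrArg (res _ (image_le_preimage φ₁ p p' g h₁))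
    (app_res ((Scheme.Modules.pullbackPushforwardAdjunction g).unit.app N) hle (secX q N x))).trans ?_
  exact (map_map _ _ _ (hle'.trans (image_le_preimage φ₀ q q' g h₀)) _).trans
    (res_res _ _ _ _).symm

variable {k : Type u} [Field k] {Cv : Cover k} {C : Scheme.{u}}
  {c : C ⟶ Spec (CommRingCat.of k)} {ε : SchemeHomOver (𝟙 (Spec (CommRingCat.of k))) c}
  (W : Realization Cv c ε) {R S : Type u} [CommRing R] [CommRing S] [Algebra k R] [Algebra k S]

/-- **Pullback of modules is pullback of bundles.** -/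
theorem isPullback_bundleOf (φ : R →ₐ[k] S) (L : (pullback c (specStr k R)).Modules)
    (hL : Scheme.Modules.IsInvertible L) :
    Bundle.IsPullback φ (bundleOf W R L hL)
      (bundleOf W S ((Scheme.Modules.pullback (baseChangeSnd c (specOver φ))).obj L)
        (hL.pullback _)) := by
  haveI := isOpenImmersion_resB₀ R W
  haveI := isOpenImmersion_resB₁ R W
  haveI := isOpenImmersion_resB₀ S W
  haveI := isOpenImmersion_resB₁ S W
  set g := baseChangeSnd c (specOver φ)
  refine ⟨squareSec (Cv.mapB₀ φ) (q₀ W R) (q₀ W S) g (mapB₀_q₀ W R φ) L,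
    squareSec (Cv.mapB₁ φ) (q₁ W R) (q₁ W S) g (mapB₁_q₁ W R φ) L,
    squareSec (Cv.mapB φ) (qA W R) (qA W S) g (mapB_qA W R φ) L,
    span_squareSec _ _ _ _ _ hL, span_squareSec _ _ _ _ _ hL, fun m => ?_, fun m => ?_⟩
  · have hle := image_le_image (Cv.resB₀ R) (q₀ W R) (qA W R) (resB₀_q₀ W R)
    have hle' := image_le_image (Cv.resB₀ S) (q₀ W S) (qA W S) (resB₀_q₀ W S)
    apply (secX (qA W S) ((Scheme.Modules.pullback g).obj L)).injective
    exact (squareSec_natural _ _ _ _ _ _ g _ _ L hle hle' m _ (secX_res₀ W R L hle m)).trans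
      (secX_res₀ W S _ hle' _).symm
  · have hle := image_le_image (Cv.resB₁ R) (q₁ W R) (qA W R) (resB₁_q₁ W R)
    have hle' := image_le_image (Cv.resB₁ S) (q₁ W S) (qA W S) (resB₁_q₁ W S)
    apply (secX (qA W S) ((Scheme.Modules.pullback g).obj L)).injective
    exact (squareSec_natural _ _ _ _ _ _ g _ _ L hle hle' m _ (secX_res₁ W R L hle m)).trans
      (secX_res₁ W S _ hle' _).symm

end FLTAgent.JacRep.Dict
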