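import Fermat.Agent.JacRep.Dict.ToBundle
import Fermat.Agent.JacRep.Dict.Extend.Glue

/-!
# Every bundle is the bundle of a module

`exists_module`: the modules of the two charts of a bundle glue along the overlap to an invertible
module on the relative curve with isomorphic bundle (by `Extend.exists_glue`).
-/

set_option autoImplicit false
set_option linter.style.haveILetI false

noncomputable section

open CategoryTheory CategoryTheory.Limits AlgebraicGeometry AlgebraicGeometry.RelPicard
  NeronModelInfra

universe u

namespace FLTAgent.JacRep.Dict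

variable {k : Type u} [Field k] {Cv : Cover k} {C : Scheme.{u}}
  {c : C ⟶ Spec (CommRingCat.of k)} {ε : SchemeHomOver (𝟙 (Spec (CommRingCat.of k))) c}
  (W : Realization Cv c ε) {R : Type u} [CommRing R] [Algebra k R]

/-- Every bundle comes from an invertible module. -/
theorem exists_module (E : Bundle Cv R) :
    ∃ (N : (pullback c (specStr k R)).Modules) (hN : Scheme.Modules.IsInvertible N),
      (bundleOf W R N hN).Iso E := by
  haveI := isOpenImmersion_resB₀ R W
  haveI := isOpenImmersion_resB₁ R W
  obtain ⟨N, hN, a₀, a₁, a, ha₀, ha₁⟩ := Extend.exists_glue (q₀ W R) (q₁ W R) (qA W R)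
    (resB₀_q₀ W R) (resB₁_q₁ W R) (range_union W R) (range_qA W R).ge E.ι₀ E.span_ι₀ E.ι₁ E.span_ι₁
  exact ⟨N, hN, a₀, a₁, a, ha₀, ha₁⟩

end FLTAgent.JacRep.Dict
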