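import Fermat.Agent.JacRep.Dict.ToBundle
import Fermat.Agent.JacRep.Dict.HomGlue.Chart

/-!
# Isomorphisms of bundles come from isomorphisms of modules

`nonempty_iso_of_bundle`: an isomorphism of the bundles of two invertible modules gives
isomorphisms on the two charts agreeing on the overlap, and these glue.
-/

set_option autoImplicit false
set_option linter.style.haveILetI false

noncomputable section

open CategoryTheory CategoryTheory.Limits AlgebraicGeometry AlgebraicGeometry.RelPicard
  NeronModelInfra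

universe u

namespace FLTAgent.JacRep.Dict

variable {k : Type u} [Field k] {Cv : Cover k} {C : Scheme.{u}}
  {c : C ⟶ Spec (CommRingCat.of k)} {ε : SchemeHomOver (𝟙 (Spec (CommRingCat.of k))) c}
  (W : Realization Cv c ε) {R : Type u} [CommRing R] [Algebra k R]

/-- Isomorphic bundles come from isomorphic modules. -/
theorem nonempty_iso_of_bundle {L L' : (pullback c (specStr k R)).Modules}
    (hL : Scheme.Modules.IsInvertible L) (hL' : Scheme.Modules.IsInvertible L')
    (h : (bundleOf W R L hL).Iso (bundleOf W R L' hL')) : Nonempty (L ≅ L') := by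
  obtain ⟨f₀, f₁, f, h₀, h₁⟩ := h
  haveI := isOpenImmersion_resB₀ R W
  haveI := isOpenImmersion_resB₁ R W
  haveI := qc_of_invertible (invertible_restrict (q₀ W R) hL)
  haveI := qc_of_invertible (invertible_restrict (q₀ W R) hL')
  haveI := qc_of_invertible (invertible_restrict (q₁ W R) hL)
  haveI := qc_of_invertible (invertible_restrict (q₁ W R) hL')
  haveI := qc_of_invertible (invertible_restrict (qA W R) hL)
  haveI := qc_of_invertible (invertible_restrict (qA W R) hL')
  let η₀ : L.restrict (q₀ W R) ≅ L'.restrict (q₀ W R) := isoOfSec f₀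
  let η₁ : L.restrict (q₁ W R) ≅ L'.restrict (q₁ W R) := isoOfSec f₁
  let η : L.restrict (qA W R) ≅ L'.restrict (qA W R) := isoOfSec f
  have t₀ : transferHom (Spec.map (CommRingCat.ofHom (Cv.resB₀ R))) (q₀ W R) (qA W R)
      (resB₀_q₀ W R) η₀.hom = η.hom :=
    transferHom_eq _ _ _ _ hL _ _ fun x => by
      rw [secMap_isoOfSec, secMap_isoOfSec]
      exact h₀ x
  have t₁ : transferHom (Spec.map (CommRingCat.ofHom (Cv.resB₁ R))) (q₁ W R) (qA W R)
      (resB₁_q₁ W R) η₁.hom = η.hom :=
    transferHom_eq _ _ _ _ hL _ _ fun x => by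
      rw [secMap_isoOfSec, secMap_isoOfSec]
      exact h₁ x
  let V : ULift.{u} Bool → (pullback c (specStr k R)).Opens := fun b =>
    match b with
    | ⟨true⟩ => (q₀ W R).opensRange
    | ⟨false⟩ => (q₁ W R).opensRange
  have hV : ⨆ b, V b = ⊤ := top_unique fun z _ => by
    rcases (range_union W R).ge (Set.mem_univ z) with hz | hz
    · exact TopologicalSpace.Opens.mem_iSup.mpr ⟨⟨true⟩, hz⟩
    · exact TopologicalSpace.Opens.mem_iSup.mpr ⟨⟨false⟩, hz⟩
  let e : ∀ b : ULift.{u} Bool, (Scheme.Modules.restrictFunctor (V b).ι).obj L ≅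
      (Scheme.Modules.restrictFunctor (V b).ι).obj L' := fun b => match b with
    | ⟨true⟩ => toImage (q₀ W R) η₀
    | ⟨false⟩ => toImage (q₁ W R) η₁
  have key : ∀ (O : (pullback c (specStr k R)).Opens) (hi : O ≤ (q₀ W R).opensRange)
      (hj : O ≤ (q₁ W R).opensRange), Glue.locApp _ (toImage (q₀ W R) η₀).hom hi =
        Glue.locApp _ (toImage (q₁ W R) η₁).hom hj := fun O hi hj => by
    have hA : O ≤ (qA W R).opensRange := fun z hz => (range_qA W R).ge ⟨hi hz, hj hz⟩
    rw [locApp_toImage, locApp_toImage, ← chartApp_transfer _ _ _ (resB₀_q₀ W R) η₀.hom hi hA,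
      ← chartApp_transfer _ _ _ (resB₁_q₁ W R) η₁.hom hj hA, t₀, t₁]
  obtain ⟨φ, -⟩ := Glue.exists_iso_of_locApp hV e fun i j O hi hj => by
    rcases i with ⟨_ | _⟩ <;> rcases j with ⟨_ | _⟩
    · rfl
    · exact (key O hj hi).symm
    · exact key O hi hj
    · rfl
  exact ⟨φ⟩

end FLTAgent.JacRep.Dict
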