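import Fermat.Prelude.Def_AlgebraicGeometry_RelativePicardFunctor

/-!
# Sections of modules on affine schemes

`Sec N` is the module of global sections of a module on `Spec R`.  For quasi-coherent modules a
morphism is given by its map of sections (`ofSec`, `hom_ext_sec`, `isoOfSec`), `tildeSec P` has
sections `P`, and under a left adjoint of the pushforward along `Spec.map φ` the image of the
global sections spans (`adjSec`, `span_adjSec`).
-/

set_option autoImplicit false
set_option linter.style.haveILetI false

noncomputable section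

open CategoryTheory CategoryTheory.Limits AlgebraicGeometry Opposite

universe u

namespace FLTAgent.JacRep.Dict

variable {R S : Type u} [CommRing R] [CommRing S]

/-- Modules on an affine scheme. -/
abbrev SpecMod (R : Type u) [CommRing R] : Type (u + 1) :=
  (Spec (CommRingCat.of R)).Modules

/-- Global sections of a module on an affine scheme. -/
def Sec (N : SpecMod R) : Type u :=
  ((moduleSpecΓFunctor (R := CommRingCat.of R)).obj N : Type u)

instance instSecAddCommGroup (N : SpecMod R) : AddCommGroup (Sec N) :=
  inferInstanceAs (AddCommGroup ((moduleSpecΓFunctor (R := CommRingCat.of R)).obj N : Type u))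

instance instSecModule (N : SpecMod R) : Module R (Sec N) :=
  inferInstanceAs (Module (CommRingCat.of R)
    ((moduleSpecΓFunctor (R := CommRingCat.of R)).obj N : Type u))

/-- The module is the one associated to its sections. -/
abbrev Qc (M : SpecMod R) : Prop :=
  IsIso (Scheme.Modules.fromTildeΓ (R := CommRingCat.of R) M)

/-- A section as a section. -/
def toSec (N : SpecMod R) : (N.presheaf.obj (op ⊤) : AddCommGrpCat.{u}) ≃+ Sec N :=
  AddEquiv.refl _

theorem smul_toSec (N : SpecMod R) (r : R) (x : (N.presheaf.obj (op ⊤) : AddCommGrpCat.{u})) :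
    r • toSec N x = toSec N ((Spec (CommRingCat.of R)).presheaf.map
      (⊤ : (Spec (CommRingCat.of R)).Opens).leTop.op
      ((Scheme.ΓSpecIso (CommRingCat.of R)).inv r) • x) := rfl

/-- The map on global sections. -/
def secMap {M N : SpecMod R} (f : M ⟶ N) : Sec M →ₗ[R] Sec N :=
  { toFun := fun x => toSec N (f.app ⊤ ((toSec M).symm x))
    map_add' := fun x y => by simp only [map_add]
    map_smul' := fun r x => by
      rw [RingHom.id_apply, smul_toSec]
      exact congrArg (toSec N) (Scheme.Modules.Hom.app_smul f _ ((toSec M).symm x)) }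

theorem secMap_apply {M N : SpecMod R} (f : M ⟶ N) (x : Sec M) :
    secMap f x = toSec N (f.app ⊤ ((toSec M).symm x)) := rfl

theorem secMap_id (M : SpecMod R) : secMap (𝟙 M) = LinearMap.id := rfl

theorem secMap_comp {M N K : SpecMod R} (f : M ⟶ N) (g : N ⟶ K) :
    secMap (f ≫ g) = (secMap g).comp (secMap f) := rfl

/-- The map on global sections of an isomorphism. -/
def secIso {M N : SpecMod R} (e : M ≅ N) : Sec M ≃ₗ[R] Sec N :=
  LinearEquiv.ofLinearMap (secMap e.hom) (secMap e.inv)
    (by rw [← secMap_comp, e.inv_hom_id, secMap_id]) (by rw [← secMap_comp, e.hom_inv_id, secMap_id])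

theorem secIso_apply {M N : SpecMod R} (e : M ≅ N) (x : Sec M) : secIso e x = secMap e.hom x := rfl

/-- Sections as an object of the category of modules. -/
def secObj (M : SpecMod R) : Sec M ≃ₗ[R] (moduleSpecΓFunctor (R := CommRingCat.of R)).obj M :=
  { toFun := fun x => (toSec M).symm x
    invFun := fun x => toSec M x
    map_add' := fun _ _ => rfl
    map_smul' := fun _ _ => rfl
    left_inv := fun _ => rfl
    right_inv := fun _ => rfl }

theorem secObj_natural {M N : SpecMod R} (f : M ⟶ N) (x : Sec M) :
    ((moduleSpecΓFunctor (R := CommRingCat.of R)).map f).hom (secObj M x) = secObj N (secMap f x) := rfl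

/-- A linear map of sections as a morphism. -/
def secHom {M N : SpecMod R} (e : Sec M →ₗ[R] Sec N) :
    (moduleSpecΓFunctor (R := CommRingCat.of R)).obj M ⟶
      (moduleSpecΓFunctor (R := CommRingCat.of R)).obj N :=
  ConcreteCategory.ofHom (((secObj N).toLinearMap.comp e).comp (secObj M).symm.toLinearMap)

/-- The morphism of quasi-coherent modules with given global sections. -/
def ofSec {M N : SpecMod R} [Qc M] (e : Sec M →ₗ[R] Sec N) : M ⟶ N :=
  inv (Scheme.Modules.fromTildeΓ (R := CommRingCat.of R) M) ≫ ((tilde.adjunction (R := CommRingCat.of R)).homEquiv ((moduleSpecΓFunctor (R := CommRingCat.of R)).obj M) N).symm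
    (secHom e)

theorem secMap_ofSec {M N : SpecMod R} [Qc M] (e : Sec M →ₗ[R] Sec N) :
    secMap (ofSec e) = e := by
  have h : (moduleSpecΓFunctor (R := CommRingCat.of R)).map (ofSec e) =
      secHom e := by
    have h₁ : (moduleSpecΓFunctor (R := CommRingCat.of R)).map (inv (Scheme.Modules.fromTildeΓ (R := CommRingCat.of R) M)) =
        (tilde.adjunction (R := CommRingCat.of R)).unit.app ((moduleSpecΓFunctor (R := CommRingCat.of R)).obj M) := by
      refine (cancel_mono ((moduleSpecΓFunctor (R := CommRingCat.of R)).map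
        (Scheme.Modules.fromTildeΓ (R := CommRingCat.of R) M))).1 ?_
      refine Eq.trans ?_ ((tilde.adjunction (R := CommRingCat.of R)).right_triangle_components M).symm
      refine ((moduleSpecΓFunctor (R := CommRingCat.of R)).map_comp _ _).symm.trans ?_
      rw [IsIso.inv_hom_id]
      exact (moduleSpecΓFunctor (R := CommRingCat.of R)).map_id M
    have hc := (moduleSpecΓFunctor (R := CommRingCat.of R)).map_comp
      (inv (Scheme.Modules.fromTildeΓ (R := CommRingCat.of R) M))
      (((tilde.adjunction (R := CommRingCat.of R)).homEquiv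
        ((moduleSpecΓFunctor (R := CommRingCat.of R)).obj M) N).symm (secHom e))
    refine hc.trans ((congrArg (· ≫ _) h₁).trans ?_)
    exact ((tilde.adjunction (R := CommRingCat.of R)).homEquiv_unit _ _ _).symm.trans
      (Equiv.apply_symm_apply _ _)
  refine LinearMap.ext fun x => (secObj N).injective ?_
  rw [← secObj_natural, h]
  show secObj N (e ((secObj M).symm (secObj M x))) = secObj N (e x)
  rw [LinearEquiv.symm_apply_apply]

theorem hom_ext_sec {M N : SpecMod R} [Qc M] {f g : M ⟶ N}
    (h : secMap f = secMap g) : f = g := by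
  have h' : (moduleSpecΓFunctor (R := CommRingCat.of R)).map f = (moduleSpecΓFunctor (R := CommRingCat.of R)).map g :=
    ModuleCat.hom_ext (LinearMap.ext fun x => congrArg (secObj N) (LinearMap.congr_fun h x))
  have hf := (tilde.adjunction (R := CommRingCat.of R)).counit.naturality f
  have hg := (tilde.adjunction (R := CommRingCat.of R)).counit.naturality g
  simp only [Functor.comp_map, Functor.id_map, h'] at hf hg
  exact (cancel_epi (Scheme.Modules.fromTildeΓ (R := CommRingCat.of R) M)).1 (hf.symm.trans hg)

/-- An isomorphism with given global sections. -/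
def isoOfSec {M N : SpecMod R} [Qc M] [Qc N]
    (e : Sec M ≃ₗ[R] Sec N) : M ≅ N where
  hom := ofSec e.toLinearMap
  inv := ofSec e.symm.toLinearMap
  hom_inv_id := hom_ext_sec (LinearMap.ext fun x => by
    rw [secMap_comp, secMap_ofSec, secMap_ofSec, secMap_id]
    exact e.symm_apply_apply x)
  inv_hom_id := hom_ext_sec (LinearMap.ext fun x => by
    rw [secMap_comp, secMap_ofSec, secMap_ofSec, secMap_id]
    exact e.apply_symm_apply x)

theorem secMap_isoOfSec {M N : SpecMod R} [Qc M] [Qc N]
    (e : Sec M ≃ₗ[R] Sec N) : secMap (isoOfSec e).hom = e.toLinearMap :=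
  secMap_ofSec _

theorem isIso_of_bijective_secMap {M N : SpecMod R} [Qc M]
    [Qc N] (f : M ⟶ N) (h : Function.Bijective (secMap f)) : IsIso f := by
  have : f = (isoOfSec (LinearEquiv.ofBijective (secMap f) h)).hom :=
    hom_ext_sec (by rw [secMap_isoOfSec]; rfl)
  rw [this]
  infer_instance

/-- The module with given sections. -/
def tildeSec (P : Type u) [AddCommGroup P] [Module R P] : SpecMod R :=
  tilde (ModuleCat.of (CommRingCat.of R) P)

/-- The sections of the module with given sections. -/
def secTilde (P : Type u) [AddCommGroup P] [Module R P] : P ≃ₗ[R] Sec (tildeSec (R := R) P) :=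
  (tilde.isoTop (ModuleCat.of (CommRingCat.of R) P)).toLinearEquiv.trans
    (secObj (tildeSec (R := R) P)).symm

instance isIso_fromTildeΓ_tildeSec (P : Type u) [AddCommGroup P] [Module R P] :
    Qc (tildeSec (R := R) P) :=
  isIso_fromTildeΓ_iff.mpr ⟨_, ⟨Iso.refl _⟩⟩

section Adjoint

variable (φ : R →+* S)

theorem appTop_inv (r : R) :
    (Spec.map (CommRingCat.ofHom φ)).app ⊤ ((Scheme.ΓSpecIso (CommRingCat.of R)).inv r) =
      (Scheme.ΓSpecIso (CommRingCat.of S)).inv (φ r) := by
  have h := congrArg (fun f => f r) (Scheme.ΓSpecIso_inv_naturality (CommRingCat.ofHom φ))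
  exact h.symm

/-- The sections of a pushforward. -/
def secPush (K : SpecMod S) :
    Sec ((Scheme.Modules.pushforward (Spec.map (CommRingCat.ofHom φ))).obj K) ≃+ Sec K :=
  AddEquiv.refl _

/-- Scalars act on sections of a pushforward through the ring map. -/
theorem secPush_smul (K : SpecMod S) (r : R)
    (x : Sec ((Scheme.Modules.pushforward (Spec.map (CommRingCat.ofHom φ))).obj K)) :
    secPush φ K (r • x) = φ r • secPush φ K x := by
  obtain ⟨y, rfl⟩ := (toSec _).surjective x
  obtain ⟨z, hz⟩ : ∃ z, z = secPush φ K (toSec _ y) := ⟨_, rfl⟩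
  rw [← hz]
  obtain ⟨w, rfl⟩ := (toSec _).surjective z
  rw [smul_toSec, smul_toSec, ← appTop_inv φ r]
  have hw : (y : _) = w := ((toSec K).injective hz).symm
  subst hw
  rfl

variable {φ} {F : SpecMod R ⥤ SpecMod S}
  (adj : F ⊣ Scheme.Modules.pushforward (Spec.map (CommRingCat.ofHom φ)))

/-- Global sections map to those of the image under a left adjoint of pushforward. -/
def adjSec (N : SpecMod R) : Sec N →ₛₗ[φ] Sec (F.obj N) where
  toFun x := secPush φ (F.obj N) (secMap (adj.unit.app N) x)
  map_add' x y := by simp only [map_add]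
  map_smul' r x := by
    rw [map_smul]
    exact secPush_smul φ (F.obj N) r _

theorem adjSec_apply (N : SpecMod R) (x : Sec N) :
    adjSec adj N x = toSec (F.obj N) ((adj.unit.app N).app ⊤ ((toSec N).symm x)) := rfl

theorem adjSec_natural {M N : SpecMod R} (f : M ⟶ N) (x : Sec M) :
    adjSec adj N (secMap f x) = secMap (F.map f) (adjSec adj M x) :=
  congrArg (fun g => secPush φ (F.obj N) (secMap g x)) (adj.unit.naturality f)

/-- **Global sections generate the image.** -/
theorem span_adjSec (N : SpecMod R) [Qc N] [Qc (F.obj N)] :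
    Submodule.span S (Set.range (adjSec adj N)) = ⊤ := by
  set Q := Submodule.span S (Set.range (adjSec adj N)) with hQ
  let π : Sec (F.obj N) →ₗ[S] Sec (tildeSec (R := S) (Sec (F.obj N) ⧸ Q)) :=
    (secTilde (Sec (F.obj N) ⧸ Q)).toLinearMap.comp Q.mkQ
  have hπ : ∀ x, π (adjSec adj N x) = 0 := fun x => by
    show secTilde (R := S) (Sec (F.obj N) ⧸ Q) (Submodule.Quotient.mk (adjSec adj N x)) = 0
    rw [(Submodule.Quotient.mk_eq_zero Q).2 (Submodule.subset_span ⟨x, rfl⟩), map_zero]
  have h0 : adj.homEquiv N _ (ofSec π) = 0 := by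
    refine hom_ext_sec (LinearMap.ext fun x => ?_)
    rw [Adjunction.homEquiv_unit, secMap_comp, LinearMap.comp_apply]
    apply (secPush φ _).injective
    show secMap (ofSec π) (adjSec adj N x) = _
    rw [secMap_ofSec, hπ]
    rfl
  have h1 : ofSec π = 0 := by
    apply (adj.homEquiv N _).injective
    rw [h0, Adjunction.homEquiv_unit, Functor.map_zero, Limits.comp_zero]
  have h2 : π = 0 := by
    rw [← secMap_ofSec π, h1]
    rfl
  rw [eq_top_iff]
  rintro x -
  exact (Submodule.Quotient.mk_eq_zero Q).1
    ((secTilde (Sec (F.obj N) ⧸ Q)).map_eq_zero_iff.1 (LinearMap.congr_fun h2 x))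

end Adjoint

end FLTAgent.JacRep.Dict
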