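import Mathlib.RingTheory.PicardGroup
import Mathlib.RingTheory.LocalProperties.FinitePresentation
import Mathlib.RingTheory.LocalProperties.Exactness

/-!
# A module with localisations free of rank one is invertible

`invertible_of_localizations`: if the localisations of `P` at elements generating the unit ideal
are free of rank one, then `P` is finitely presented and invertible.
-/

set_option autoImplicit false

noncomputable section

open TensorProduct

universe u

namespace FLTAgent.JacRep.Dict

/-- A module which is locally free of rank one is invertible. -/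
theorem invertible_of_localizations {B P : Type u} [CommRing B] [AddCommGroup P] [Module B P]
    (s : Set B) (hs : Ideal.span s = ⊤) (φ : ∀ r : s, P →ₗ[B] Localization.Away r.1)
    [∀ r : s, IsLocalizedModule.Away r.1 (φ r)] : Module.Invertible B P := by
  classical
  have : Module.FinitePresentation B P :=
    Module.FinitePresentation.of_localizationSpan' (Rₚ := fun r : s => Localization.Away r.1)
      s hs φ fun r => inferInstance
  have hid : ∀ (f : Module.Dual B P) (x m : P), f x • m = f m • x := by
    intro f x m
    refine Module.eq_of_isLocalized_span s hs (fun r : s => Localization.Away r.1) φ _ _ fun r => ?_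
    obtain ⟨⟨m', a⟩, hm⟩ := IsLocalizedModule.surj (Submonoid.powers r.1) (φ r) 1
    let f' := IsLocalizedModule.map (Submonoid.powers r.1) (φ r)
      (Algebra.linearMap B (Localization.Away r.1)) f
    let g := f'.extendScalarsOfIsLocalization (Submonoid.powers r.1) (Localization.Away r.1)
    have hg : ∀ y, algebraMap B (Localization.Away r.1) (f y) = φ r y * g 1 := by
      intro y
      have h1 : algebraMap B (Localization.Away r.1) (f y) = g (φ r y) :=
        (IsLocalizedModule.map_apply _ (φ r) (Algebra.linearMap B (Localization.Away r.1)) f y).symm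
      rw [h1, ← smul_eq_mul (φ r y) (g 1), ← map_smul, smul_eq_mul, mul_one]
    rw [map_smul, map_smul, Algebra.smul_def, Algebra.smul_def, hg x, hg m]
    ring
  have htr : ∀ r : s, ∃ (f : Module.Dual B P) (m : P) (n : ℕ), f m = r.1 ^ n := by
    intro r
    obtain ⟨f, t, hf⟩ := Module.FinitePresentation.exists_lift_of_isLocalizedModule
      (Submonoid.powers r.1) (Algebra.linearMap B (Localization.Away r.1)) (φ r)
    obtain ⟨⟨m, a⟩, hm⟩ := IsLocalizedModule.surj (Submonoid.powers r.1) (φ r) 1
    have h : algebraMap B (Localization.Away r.1) (f m) =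
        algebraMap B (Localization.Away r.1) ((t : B) * (a : B)) := by
      have h1 := LinearMap.congr_fun hf m
      rw [LinearMap.comp_apply, LinearMap.smul_apply, Algebra.linearMap_apply] at h1
      rw [h1, ← hm, Submonoid.smul_def, Submonoid.smul_def, Algebra.smul_def, Algebra.smul_def,
        mul_one, map_mul]
    obtain ⟨c, hc⟩ := IsLocalization.exists_of_eq (M := Submonoid.powers r.1) h
    obtain ⟨nt, hnt⟩ := t.2
    obtain ⟨na, hna⟩ := a.2
    obtain ⟨nc, hnc⟩ := c.2
    refine ⟨(c : B) • f, m, nc + (nt + na), ?_⟩
    rw [LinearMap.smul_apply, smul_eq_mul, hc, pow_add, pow_add]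
    exact congrArg₂ (· * ·) hnc.symm (congrArg₂ (· * ·) hnt.symm hna.symm)
  have hspan : Submodule.span B {c : B | ∃ (f : Module.Dual B P) (m : P), f m = c} = ⊤ := by
    by_contra hne
    obtain ⟨M, hM, hle⟩ := Ideal.exists_le_maximal _ hne
    refine hM.ne_top (eq_top_iff.2 (hs ▸ Ideal.span_le.2 fun r hr => ?_))
    obtain ⟨f, m, n, h⟩ := htr ⟨r, hr⟩
    exact hM.isPrime.mem_of_pow_mem n (hle (Submodule.subset_span ⟨f, m, h⟩))
  have hone : (1 : B) ∈ LinearMap.range (contractLeft B P) := by
    have : Submodule.span B {c : B | ∃ (f : Module.Dual B P) (m : P), f m = c} ≤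
        LinearMap.range (contractLeft B P) := Submodule.span_le.2 fun c hc => by
      obtain ⟨f, m, h⟩ := hc
      exact ⟨f ⊗ₜ m, by rw [contractLeft_apply, h]⟩
    exact this (hspan ▸ Submodule.mem_top)
  obtain ⟨T, hT⟩ := hone
  have key : ∀ (z : Module.Dual B P ⊗[B] P), z = contractLeft B P z • T := by
    intro z
    have h2 : ∀ (ψ f : Module.Dual B P) (x : P), f x • ψ = ψ x • f := by
      intro ψ f x
      ext y
      rw [LinearMap.smul_apply, LinearMap.smul_apply, smul_eq_mul, smul_eq_mul]
      have := congrArg ψ (hid f x y)
      rw [map_smul, map_smul, smul_eq_mul, smul_eq_mul] at this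
      rw [this, mul_comm]
    have h3 : ∀ (S : Module.Dual B P ⊗[B] P) (ψ : Module.Dual B P) (x : P),
        contractLeft B P S • (ψ ⊗ₜ[B] x) = ψ x • S := by
      intro S ψ x
      induction S using TensorProduct.induction_on with
      | zero => rw [map_zero, zero_smul, smul_zero]
      | tmul f m =>
        rw [contractLeft_apply, ← TensorProduct.tmul_smul, ← hid f x m, TensorProduct.tmul_smul,
          TensorProduct.smul_tmul', h2 ψ f x, ← TensorProduct.smul_tmul']
      | add u v hu hv => rw [map_add, add_smul, hu, hv, smul_add]
    induction z using TensorProduct.induction_on with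
    | zero => rw [map_zero, zero_smul]
    | tmul ψ x => rw [contractLeft_apply, ← h3 T ψ x, hT, one_smul]
    | add u v hu hv => rw [map_add, add_smul, ← hu, ← hv]
  refine ⟨fun z w h => ?_, fun b => ⟨b • T, by rw [map_smul, hT, smul_eq_mul, mul_one]⟩⟩
  rw [key z, key w, h]

end FLTAgent.JacRep.Dict
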