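import Fermat.Agent.JacRep.Dict.Affine
import Fermat.Agent.JacRep.Dict.RankOne

/-!
# Invertible modules on affine schemes

An invertible module is quasi-coherent (`isQuasicoherent_of_invertible`), its sections form an
invertible module over the ring (`invertible_sec`: they are free of rank one after localisation on
a cover), and conversely the module of an invertible module is invertible
(`invertible_tildeSec`).
-/

set_option autoImplicit false
set_option linter.style.haveILetI false

noncomputable section

open CategoryTheory CategoryTheory.Limits AlgebraicGeometry Opposite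

universe u

namespace FLTAgent.JacRep.Dict

variable {R S : Type u} [CommRing R] [CommRing S] {X Y : Scheme.{u}}

theorem invertible_of_iso {M N : X.Modules} (e : M ≅ N) (h : Scheme.Modules.IsInvertible M) :
    Scheme.Modules.IsInvertible N :=
  ⟨fun x => by
    obtain ⟨U, hU, ⟨f⟩⟩ := h.1 x
    exact ⟨U, hU, ⟨(Scheme.Modules.pullback U.ι).mapIso e.symm ≪≫ f⟩⟩⟩

theorem invertible_restrict (f : X ⟶ Y) [IsOpenImmersion f] {N : Y.Modules}
    (h : Scheme.Modules.IsInvertible N) : Scheme.Modules.IsInvertible (N.restrict f) :=
  invertible_of_iso ((Scheme.Modules.restrictFunctorIsoPullback f).app N).symm (h.pullback f)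

/-- An invertible module is quasi-coherent. -/
theorem isQuasicoherent_of_invertible {N : X.Modules} (h : Scheme.Modules.IsInvertible N) :
    N.IsQuasicoherent := by
  choose U hU e using h.1
  haveI : ∀ x, SheafOfModules.IsQuasicoherent.{u} (SheafOfModules.over.{u} N (U x)) := by
    intro x
    let f : (Scheme.Modules.overEquiv (U x)).functor.obj
        (SheafOfModules.over N (U x)) ≅ (Scheme.Modules.overEquiv (U x)).functor.obj
        (SheafOfModules.over (SheafOfModules.unit X.ringCatSheaf) (U x)) :=
      (Scheme.Modules.overFunctorEquiv (U x)).app N ≪≫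
        (Scheme.Modules.restrictFunctorIsoPullback (U x).ι).app N ≪≫ (e x).some ≪≫
        (Scheme.Modules.restrictUnitIso (U x).ι).symm ≪≫
        ((Scheme.Modules.overFunctorEquiv (U x)).app (SheafOfModules.unit X.ringCatSheaf)).symm
    let g : SheafOfModules.free PUnit.{u+1} ≅ SheafOfModules.over N (U x) :=
      coproductUniqueIso _ ≪≫
        ((Scheme.Modules.overEquiv (U x)).fullyFaithfulFunctor.preimageIso f).symm
    exact (SheafOfModules.presentationOfIsCokernelFree
      (0 : SheafOfModules.free PEmpty.{u+1} ⟶ SheafOfModules.free PUnit.{u+1}) g.hom zero_comp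
      (IsCokernel.ofIso _ (CokernelCofork.IsColimit.ofId
        (0 : SheafOfModules.free PEmpty.{u+1} ⟶ SheafOfModules.free PUnit.{u+1}) rfl) _
        (Iso.refl _) (Iso.refl _) g (by simp) (by simp))).isQuasicoherent
  refine SheafOfModules.IsQuasicoherent.of_coversTop N U ?_
  rw [Opens.coversTop_iff, TopologicalSpace.IsOpenCover, eq_top_iff]
  exact fun x _ => TopologicalSpace.Opens.mem_iSup.2 ⟨x, hU x⟩

theorem qc_of_invertible {N : SpecMod R} (h : Scheme.Modules.IsInvertible N) : Qc N :=
  haveI := isQuasicoherent_of_invertible h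
  Scheme.Modules.isIso_fromTildeΓ_of_isQuasicoherent (R := CommRingCat.of R) N

theorem qc_restrict (φ : R →+* S) [IsOpenImmersion (Spec.map (CommRingCat.ofHom φ))]
    (N : SpecMod R) (h : Scheme.Modules.IsInvertible N) :
    Qc (N.restrict (Spec.map (CommRingCat.ofHom φ))) :=
  qc_of_invertible (invertible_restrict _ h)

variable (R) in
/-- The structure sheaf. -/
abbrev unitMod : SpecMod R := SheafOfModules.unit.{u} (Spec (CommRingCat.of R)).ringCatSheaf

/-- The sections of the structure sheaf. -/
def secUnit : Sec (unitMod R) ≃ₗ[R] R :=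
  ((secTilde (R := R) R).trans
    (secIso (M := tildeSec (R := R) R) (N := unitMod R) (tildeSelf (R := CommRingCat.of R)))).symm

instance instQcUnitMod : Qc (unitMod R) :=
  qc_of_invertible (Scheme.Modules.isInvertible_unit _)

/-- Sections of a module over the opens of an affine scheme. -/
abbrev SecOn (N : SpecMod R) (U : (Spec (CommRingCat.of R)).Opens) : Type u :=
  (((modulesSpecToSheaf (R := CommRingCat.of R)).obj N).obj.obj (op U) : ModuleCat.{u} _)

/-- Restriction of global sections. -/
def resOn (N : SpecMod R) (U : (Spec (CommRingCat.of R)).Opens) :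
    Sec N →ₗ[CommRingCat.of R] SecOn N U :=
  (((modulesSpecToSheaf (R := CommRingCat.of R)).obj N).obj.map (homOfLE le_top).op).hom

theorem isLocalizedModule_resOn (N : SpecMod R) [hN : Qc N] (r : R)
    (U : (Spec (CommRingCat.of R)).Opens)
    (hU : U = (PrimeSpectrum.basicOpen r : (Spec (CommRingCat.of R)).Opens)) :
    IsLocalizedModule.Away (r : CommRingCat.of R) (resOn N U) := by
  subst hU
  exact (isIso_fromTildeΓ_iff_isLocalizing (R := CommRingCat.of R) N).1 hN r

variable (φ : R →+* S) [IsOpenImmersion (Spec.map (CommRingCat.ofHom φ))]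

/-- The sections of a restriction. -/
def secRestrict (N : SpecMod R) : Sec (N.restrict (Spec.map (CommRingCat.ofHom φ))) ≃+
    SecOn N (Spec.map (CommRingCat.ofHom φ) ''ᵁ ⊤) :=
  AddEquiv.refl _

theorem secRestrict_smul (N : SpecMod R) (r : R)
    (x : Sec (N.restrict (Spec.map (CommRingCat.ofHom φ)))) :
    secRestrict φ N (φ r • x) = (r : CommRingCat.of R) • secRestrict φ N x :=
  Scheme.Modules.restrictAppIso_smul_Spec (M := N) (CommRingCat.ofHom φ) (U := ⊤) r
    ((toSec _).symm x)

/-- Restriction of sections along an open immersion of affine schemes. -/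
def resSec (N : SpecMod R) : Sec N →ₛₗ[φ] Sec (N.restrict (Spec.map (CommRingCat.ofHom φ))) :=
  adjSec (Scheme.Modules.restrictAdjunction (Spec.map (CommRingCat.ofHom φ))) N

theorem secRestrict_resSec (N : SpecMod R) (x : Sec N) :
    secRestrict φ N (resSec φ N x) = resOn N _ x := rfl

omit φ in
theorem image_top_away (r : R) :
    Spec.map (CommRingCat.ofHom (algebraMap R (Localization.Away r))) ''ᵁ ⊤ =
      (PrimeSpectrum.basicOpen r : (Spec (CommRingCat.of R)).Opens) :=
  (Scheme.Hom.image_top_eq_opensRange _).trans
    (Scheme.Hom.opensRange_localizationAway (R := CommRingCat.of R) r)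

omit φ in
/-- The sections of an invertible module form an invertible module. -/
theorem invertible_sec {N : SpecMod R} (h : Scheme.Modules.IsInvertible N) :
    Module.Invertible R (Sec N) := by
  haveI := qc_of_invertible h
  have hD : ∀ x : Spec (CommRingCat.of R), ∃ r : R,
      x ∈ (PrimeSpectrum.basicOpen r : (Spec (CommRingCat.of R)).Opens) ∧
      Nonempty (N.restrict (Spec.map (CommRingCat.ofHom (algebraMap R (Localization.Away r)))) ≅
        unitMod (Localization.Away r)) := by
    intro x
    obtain ⟨U, hU, ⟨e⟩⟩ := h.1 x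
    obtain ⟨_, ⟨_, ⟨r, rfl⟩, rfl⟩, hxr, hrU⟩ :=
      PrimeSpectrum.isBasis_basic_opens.exists_subset_of_mem_open hU U.2
    refine ⟨r, hxr, ⟨?_⟩⟩
    set g := Spec.map (CommRingCat.ofHom (algebraMap R (Localization.Away r)))
    have hg : Set.range g ⊆ Set.range U.ι := by
      rw [Scheme.Opens.range_ι]
      have := congrArg (fun V : (Spec (CommRingCat.of R)).Opens => (V : Set (Spec (CommRingCat.of R))))
        (image_top_away r)
      intro y hy
      refine hrU (this ▸ ?_)
      obtain ⟨z, rfl⟩ := hy
      exact ⟨z, trivial, rfl⟩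
    exact (Scheme.Modules.restrictFunctorIsoPullback g).app N ≪≫
      (Scheme.Modules.pullbackCongr (IsOpenImmersion.lift_fac U.ι g hg).symm).app N ≪≫
      ((Scheme.Modules.pullbackComp _ _).app N).symm ≪≫
      (Scheme.Modules.pullback _).mapIso e ≪≫ Scheme.Modules.pullbackUnitIso _
  choose r hr hiso using hD
  have hs : Ideal.span (Set.range r) = ⊤ := by
    rw [← PrimeSpectrum.zeroLocus_empty_iff_eq_top, Set.eq_empty_iff_forall_notMem]
    intro x hx
    rw [PrimeSpectrum.zeroLocus_span] at hx
    exact hr x (hx ⟨x, rfl⟩)
  have hφ : ∀ s : Set.range r, ∃ f : Sec N →ₗ[R] Localization.Away s.1,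
      IsLocalizedModule.Away s.1 f := by
    rintro ⟨_, x, rfl⟩
    obtain ⟨e⟩ := hiso x
    haveI := isLocalizedModule_resOn N (r x) _ (image_top_away (r x))
    let ψ : SecOn N (Spec.map (CommRingCat.ofHom (algebraMap R (Localization.Away (r x)))) ''ᵁ ⊤)
        ≃ₗ[CommRingCat.of R] Localization.Away (r x) :=
      { (secRestrict (algebraMap R (Localization.Away (r x))) N).symm.trans
          ((secIso e).trans secUnit).toAddEquiv with
        map_smul' := fun c z => by
          obtain ⟨w, rfl⟩ := (secRestrict (algebraMap R (Localization.Away (r x))) N).surjective z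
          rw [← secRestrict_smul]
          show ((secIso e).trans secUnit) ((secRestrict _ N).symm (secRestrict _ N _)) = _
          rw [AddEquiv.symm_apply_apply, map_smul]
          simp only [RingHom.id_apply, AddEquiv.toFun_eq_coe, AddEquiv.trans_apply,
            AddEquiv.symm_apply_apply]
          exact IsScalarTower.algebraMap_smul (M := Localization.Away (r x)) _ c _ }
    exact ⟨ψ.toLinearMap.comp (resOn N _),
      IsLocalizedModule.of_linearEquiv (Submonoid.powers (r x : CommRingCat.of R))
        (resOn N _) ψ⟩
  choose f hf using hφ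
  haveI := hf
  exact invertible_of_localizations _ hs f

omit φ in
/-- The module of an invertible module is invertible. -/
theorem invertible_tildeSec (P : Type u) [AddCommGroup P] [Module R P] [Module.Invertible R P] :
    Scheme.Modules.IsInvertible (tildeSec (R := R) P) := by
  obtain ⟨s, hs, hfree⟩ := Module.Invertible.exists_finset_free_localization (R := R) (M := P)
  refine ⟨fun x => ?_⟩
  obtain ⟨r, hrs, hr⟩ : ∃ r ∈ s, x ∈ (PrimeSpectrum.basicOpen r : (Spec (CommRingCat.of R)).Opens) := by
    by_contra hcon
    push Not at hcon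
    have : x ∈ PrimeSpectrum.zeroLocus ((Ideal.span (s : Set R) : Ideal R) : Set R) := by
      rw [PrimeSpectrum.zeroLocus_span]
      exact fun r hr => not_not.1 (hcon r hr)
    rw [hs] at this
    exact x.2.ne_top (eq_top_iff.2 this)
  haveI := hfree r hrs
  obtain ⟨e₁⟩ := Module.Invertible.free_iff_linearEquiv.1 (hfree r hrs)
  set ρ := algebraMap R (Localization.Away r)
  set N := tildeSec (R := R) P
  haveI := isLocalizedModule_resOn N r _ (image_top_away r)
  let j := IsLocalizedModule.iso (Submonoid.powers (r : CommRingCat.of R))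
    ((resOn N (Spec.map (CommRingCat.ofHom ρ) ''ᵁ ⊤)).comp (secTilde (R := R) P).toLinearMap)
  let σ : Sec (N.restrict (Spec.map (CommRingCat.ofHom ρ))) :=
    (secRestrict ρ N).symm (j (e₁.symm 1))
  let f := LinearMap.toSpanSingleton (Localization.Away r) _ σ
  let F : Localization.Away r →ₗ[R] SecOn N (Spec.map (CommRingCat.ofHom ρ) ''ᵁ ⊤) :=
    { toFun := fun b => secRestrict ρ N (f b)
      map_add' := fun b b' => by rw [map_add, map_add]
      map_smul' := fun c b => by
        rw [RingHom.id_apply, Algebra.smul_def, ← smul_eq_mul, map_smul, secRestrict_smul] }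
  have hF : F = j.toLinearMap.comp (e₁.symm.toLinearMap.restrictScalars R) := by
    refine IsLocalizedModule.ext (Submonoid.powers r)
      (Algebra.linearMap R (Localization.Away r))
      (IsLocalizedModule.map_units (S := Submonoid.powers (r : CommRingCat.of R))
        ((resOn N (Spec.map (CommRingCat.ofHom ρ) ''ᵁ ⊤)).comp (secTilde (R := R) P).toLinearMap))
      (LinearMap.ext_ring ?_)
    show secRestrict ρ N (f (algebraMap R _ 1)) = j (e₁.symm (algebraMap R _ 1))
    rw [map_one, LinearMap.toSpanSingleton_apply, one_smul]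
    exact (secRestrict ρ N).apply_symm_apply _
  have hbij : Function.Bijective f := by
    have : Function.Bijective F := by
      rw [hF]
      exact j.bijective.comp e₁.symm.bijective
    exact (Function.Bijective.of_comp_iff' (secRestrict ρ N).bijective _).1 this
  haveI : Qc (N.restrict (Spec.map (CommRingCat.ofHom ρ))) := by
    haveI : N.IsQuasicoherent :=
      inferInstanceAs (tilde (ModuleCat.of (CommRingCat.of R) P)).IsQuasicoherent
    exact Scheme.Modules.isIso_fromTildeΓ_of_isQuasicoherent
      (R := CommRingCat.of (Localization.Away r)) _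
  let e : unitMod (Localization.Away r) ≅
      N.restrict (Spec.map (CommRingCat.ofHom ρ)) :=
    isoOfSec (secUnit.trans (LinearEquiv.ofBijective f hbij))
  refine ⟨(PrimeSpectrum.basicOpen r : (Spec (CommRingCat.of R)).Opens), hr, ⟨?_⟩⟩
  exact (Scheme.Modules.pullbackCongr
      (basicOpenIsoSpecAway_hom_SpecMap (R := CommRingCat.of R) r).symm).app N ≪≫
    ((Scheme.Modules.pullbackComp _ _).app N).symm ≪≫
    (Scheme.Modules.pullback _).mapIso
      (((Scheme.Modules.restrictFunctorIsoPullback _).app N).symm ≪≫ e.symm) ≪≫
    Scheme.Modules.pullbackUnitIso _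

end FLTAgent.JacRep.Dict
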