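import Fermat.Agent.JacRep.Curve

/-!
# The affine pieces of the curve over an affine base

For a realised cover, `q₀`, `q₁` and `qA` are the open immersions of the base changed charts and
overlap into `C ×ₖ Spec R`.  They cover it and meet in the overlap (`range_union`, `range_qA`), and
they are compatible with restriction, change of coefficients and the base section
(`resB₀_q₀`, `mapB₀_q₀`, `baseB_q₀`).
-/

set_option autoImplicit false
set_option linter.style.haveILetI false

noncomputable section

open CategoryTheory CategoryTheory.Limits AlgebraicGeometry AlgebraicGeometry.RelPicard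
  NeronModelInfra
open scoped TensorProduct

universe u

namespace FLTAgent.JacRep.Dict

variable {k : Type u} [Field k] {C : Scheme.{u}}

section General

variable (c : C ⟶ Spec (CommRingCat.of k)) {A A' : Type u} [CommRing A] [Algebra k A] [CommRing A']
  [Algebra k A'] (j : Spec (CommRingCat.of A) ⟶ C) (hj : j ≫ c = specStr k A)
  (j' : Spec (CommRingCat.of A') ⟶ C) (hj' : j' ≫ c = specStr k A') (R : Type u) [CommRing R]
  [Algebra k R]

/-- The projection to the chart. -/
abbrev incR : Spec (CommRingCat.of (R ⊗[k] A)) ⟶ Spec (CommRingCat.of A) :=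
  Spec.map (CommRingCat.ofHom (Algebra.TensorProduct.includeRight : A →ₐ[k] R ⊗[k] A).toRingHom)

/-- The projection to the base. -/
abbrev incL : Spec (CommRingCat.of (R ⊗[k] A)) ⟶ Spec (CommRingCat.of R) :=
  Spec.map (CommRingCat.ofHom (Algebra.TensorProduct.includeLeftRingHom : R →+* R ⊗[k] A))

/-- A piece of the curve over `R`. -/
def piece : Spec (CommRingCat.of (R ⊗[k] A)) ⟶ pullback c (specStr k R) :=
  pullback.lift (incR R ≫ j) (incL R) (by
    rw [Category.assoc, hj, specStr, specStr, ← Spec.map_comp, ← Spec.map_comp]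
    exact congrArg Spec.map (CommRingCat.isPushout_tensorProduct k R A).w.symm)

theorem piece_fst : piece c j hj R ≫ pullback.fst _ _ = incR R ≫ j := pullback.lift_fst _ _ _

theorem piece_snd : piece c j hj R ≫ pullback.snd _ _ = incL R := pullback.lift_snd _ _ _

theorem isPullback_piece :
    IsPullback (piece c j hj R) (incR R) (pullback.fst c (specStr k R)) j := by
  refine IsPullback.of_right ?_ (piece_fst c j hj R) (IsPullback.of_hasPullback c (specStr k R)).flip
  rw [piece_snd, hj]
  exact isPullback_SpecMap_of_isPushout _ _ _ _ (CommRingCat.isPushout_tensorProduct k R A)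

theorem isOpenImmersion_piece [IsOpenImmersion j] : IsOpenImmersion (piece c j hj R) :=
  MorphismProperty.of_isPullback (P := @IsOpenImmersion) (isPullback_piece c j hj R).flip ‹_›

theorem range_piece [IsOpenImmersion j] :
    Set.range (piece c j hj R) = (pullback.fst c (specStr k R)) ⁻¹' Set.range j := by
  have h := isPullback_piece c j hj R
  have hr : Set.range (piece c j hj R) = Set.range (pullback.fst (pullback.fst c (specStr k R)) j) := by
    rw [← h.isoPullback_hom_fst, Scheme.Hom.comp_base, TopCat.coe_comp, Set.range_comp,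
      Set.range_eq_univ.mpr h.isoPullback.hom.surjective, Set.image_univ]
  rw [hr, IsOpenImmersion.range_pullbackFst]
  rfl

variable {R} {R' : Type u} [CommRing R'] [Algebra k R'] (φ : R →ₐ[k] R')

theorem piece_base_change :
    Spec.map (CommRingCat.ofHom (Algebra.TensorProduct.map φ (AlgHom.id k A)).toRingHom) ≫
      piece c j hj R = piece c j hj R' ≫ baseChangeSnd c (specOver φ) := by
  apply pullback.hom_ext
  · rw [Category.assoc, piece_fst, Category.assoc, baseChangeSnd, pullback.map, pullback.lift_fst,
      Category.comp_id, piece_fst, ← Category.assoc, ← Spec.map_comp]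
    congr 2
    ext a
    simp
  · rw [Category.assoc, piece_snd, Category.assoc, baseChangeSnd, pullback.map, pullback.lift_snd,
      ← Category.assoc (piece c j hj R'), piece_snd, specOver, ← Spec.map_comp, ← Spec.map_comp]
    congr 1

theorem piece_comp (res : A →ₐ[k] A') (hres : Spec.map (CommRingCat.ofHom res.toRingHom) ≫ j = j') :
    Spec.map (CommRingCat.ofHom (Algebra.TensorProduct.map (AlgHom.id k R) res).toRingHom) ≫
      piece c j hj R = piece c j' hj' R := by
  apply pullback.hom_ext
  · rw [Category.assoc, piece_fst, piece_fst, ← hres, ← Category.assoc, ← Category.assoc,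
      ← Spec.map_comp, ← Spec.map_comp]
    congr 2
  · rw [Category.assoc, piece_snd, piece_snd, ← Spec.map_comp]
    congr 1
    ext r
    simp

end General

variable {Cv : Cover k} {c : C ⟶ Spec (CommRingCat.of k)}
  {ε : SchemeHomOver (𝟙 (Spec (CommRingCat.of k))) c} (W : Realization Cv c ε) (R : Type u)
  [CommRing R] [Algebra k R]

/-- The overlap of the charts in the curve. -/
abbrev jA : Spec (CommRingCat.of Cv.A) ⟶ C :=
  Spec.map (CommRingCat.ofHom Cv.res₀.toRingHom) ≫ W.j₀

theorem overA : jA W ≫ c = specStr k Cv.A := by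
  rw [Category.assoc, W.over₀, specStr, specStr, ← Spec.map_comp]
  congr 1
  ext a
  simp

theorem jA_eq : Spec.map (CommRingCat.ofHom Cv.res₁.toRingHom) ≫ W.j₁ = jA W := W.isPullback.w.symm

theorem isOpenImmersion_jA : IsOpenImmersion (jA W) := by
  haveI := W.isOpenImmersion₀
  haveI := W.isOpenImmersion₁
  haveI : IsOpenImmersion (Spec.map (CommRingCat.ofHom Cv.res₀.toRingHom)) :=
    MorphismProperty.of_isPullback (P := @IsOpenImmersion) W.isPullback.flip W.isOpenImmersion₁
  infer_instance

theorem range_jA : Set.range (jA W) = Set.range W.j₀ ∩ Set.range W.j₁ := by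
  haveI := W.isOpenImmersion₀
  haveI := W.isOpenImmersion₁
  rw [show jA W = Spec.map (CommRingCat.ofHom Cv.res₀.toRingHom) ≫ W.j₀ from rfl,
    ← W.isPullback.isoPullback_hom_fst, Category.assoc, Scheme.Hom.comp_base, TopCat.coe_comp,
    Set.range_comp, Set.range_eq_univ.mpr W.isPullback.isoPullback.hom.surjective, Set.image_univ,
    IsOpenImmersion.range_pullback_to_base_of_left]

/-- The first piece. -/
def q₀ : Spec (CommRingCat.of (Cv.B₀ R)) ⟶ pullback c (specStr k R) := piece c W.j₀ W.over₀ R

/-- The second piece. -/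
def q₁ : Spec (CommRingCat.of (Cv.B₁ R)) ⟶ pullback c (specStr k R) := piece c W.j₁ W.over₁ R

/-- The common piece. -/
def qA : Spec (CommRingCat.of (Cv.B R)) ⟶ pullback c (specStr k R) := piece c (jA W) (overA W) R

instance isOpenImmersion_q₀ : IsOpenImmersion (q₀ W R) :=
  haveI := W.isOpenImmersion₀
  isOpenImmersion_piece c W.j₀ W.over₀ R

instance isOpenImmersion_q₁ : IsOpenImmersion (q₁ W R) :=
  haveI := W.isOpenImmersion₁
  isOpenImmersion_piece c W.j₁ W.over₁ R

instance isOpenImmersion_qA : IsOpenImmersion (qA W R) :=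
  haveI := isOpenImmersion_jA W
  isOpenImmersion_piece c (jA W) (overA W) R

theorem resB₀_q₀ : Spec.map (CommRingCat.ofHom (Cv.resB₀ R)) ≫ q₀ W R = qA W R :=
  piece_comp c W.j₀ W.over₀ (jA W) (overA W) Cv.res₀ rfl

theorem resB₁_q₁ : Spec.map (CommRingCat.ofHom (Cv.resB₁ R)) ≫ q₁ W R = qA W R :=
  piece_comp c W.j₁ W.over₁ (jA W) (overA W) Cv.res₁ (jA_eq W)

theorem isOpenImmersion_resB₀ (W : Realization Cv c ε) :
    IsOpenImmersion (Spec.map (CommRingCat.ofHom (Cv.resB₀ R))) := by
  haveI : IsOpenImmersion (Spec.map (CommRingCat.ofHom (Cv.resB₀ R)) ≫ q₀ W R) := by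
    rw [resB₀_q₀]; infer_instance
  exact IsOpenImmersion.of_comp _ (q₀ W R)

theorem isOpenImmersion_resB₁ (W : Realization Cv c ε) :
    IsOpenImmersion (Spec.map (CommRingCat.ofHom (Cv.resB₁ R))) := by
  haveI : IsOpenImmersion (Spec.map (CommRingCat.ofHom (Cv.resB₁ R)) ≫ q₁ W R) := by
    rw [resB₁_q₁]; infer_instance
  exact IsOpenImmersion.of_comp _ (q₁ W R)

theorem range_union : Set.range (q₀ W R) ∪ Set.range (q₁ W R) = Set.univ := by
  haveI := W.isOpenImmersion₀
  haveI := W.isOpenImmersion₁
  rw [q₀, q₁, range_piece, range_piece, ← Set.preimage_union, W.range_union, Set.preimage_univ]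

theorem range_qA : Set.range (qA W R) = Set.range (q₀ W R) ∩ Set.range (q₁ W R) := by
  haveI := W.isOpenImmersion₀
  haveI := W.isOpenImmersion₁
  haveI := isOpenImmersion_jA W
  rw [q₀, q₁, qA, range_piece, range_piece, range_piece, ← Set.preimage_inter, range_jA]

theorem mapB₀_q₀ {R' : Type u} [CommRing R'] [Algebra k R'] (φ : R →ₐ[k] R') :
    Spec.map (CommRingCat.ofHom (Cv.mapB₀ φ)) ≫ q₀ W R =
      q₀ W R' ≫ baseChangeSnd c (specOver φ) :=
  piece_base_change c W.j₀ W.over₀ φ

theorem mapB₁_q₁ {R' : Type u} [CommRing R'] [Algebra k R'] (φ : R →ₐ[k] R') :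
    Spec.map (CommRingCat.ofHom (Cv.mapB₁ φ)) ≫ q₁ W R =
      q₁ W R' ≫ baseChangeSnd c (specOver φ) :=
  piece_base_change c W.j₁ W.over₁ φ

theorem mapB_qA {R' : Type u} [CommRing R'] [Algebra k R'] (φ : R →ₐ[k] R') :
    Spec.map (CommRingCat.ofHom (Cv.mapB φ)) ≫ qA W R =
      qA W R' ≫ baseChangeSnd c (specOver φ) :=
  piece_base_change c (jA W) (overA W) φ

theorem baseB_q₀ : Spec.map (CommRingCat.ofHom (Cv.baseB R)) ≫ q₀ W R =
    rigSection c (specStr k R) ε := by
  apply pullback.hom_ext
  · rw [q₀, Category.assoc, piece_fst, rigSection, pullback.lift_fst, ← Category.assoc,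
      ← Spec.map_comp, ← W.base_eq, ← Category.assoc, specStr, ← Spec.map_comp]
    congr 2
    ext a
    simp [Cover.baseB, Algebra.smul_def]
  · rw [q₀, Category.assoc, piece_snd, rigSection, pullback.lift_snd, ← Spec.map_comp,
      ← Spec.map_id]
    congr 1
    ext r
    simp [Cover.baseB]

end FLTAgent.JacRep.Dict
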