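import Fermat.Agent.JacRep.Dict.Local

/-!
# Sections over affine charts

`chartRes` restricts sections to a smaller chart and `squareSec` pulls them back along a square of
charts; for invertible modules the images of both span (`span_chartRes`, `span_squareSec`).
`secX` reads sections of a restriction as sections over the image of the chart.
-/

set_option autoImplicit false
set_option linter.style.haveILetI false

noncomputable section

open CategoryTheory CategoryTheory.Limits AlgebraicGeometry Opposite

universe u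

namespace FLTAgent.JacRep.Dict

variable {R S : Type u} [CommRing R] [CommRing S] {X Y : Scheme.{u}}

/-- Sections over a chart are sections over its image. -/
def secX (q : Spec (CommRingCat.of R) ⟶ X) [IsOpenImmersion q] (N : X.Modules) :
    Sec (N.restrict q) ≃+ (N.presheaf.obj (op (q ''ᵁ ⊤)) : AddCommGrpCat.{u}) :=
  AddEquiv.refl _

/-- Restriction of sections to a smaller open. -/
abbrev res (N : X.Modules) {U V : X.Opens} (h : V ≤ U)
    (x : (N.presheaf.obj (op U) : AddCommGrpCat.{u})) :
    (N.presheaf.obj (op V) : AddCommGrpCat.{u}) :=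
  N.presheaf.map (homOfLE h).op x

theorem res_res (N : X.Modules) {U V W : X.Opens} (h : V ≤ U) (h' : W ≤ V)
    (x : (N.presheaf.obj (op U) : AddCommGrpCat.{u})) :
    res N h' (res N h x) = res N (h'.trans h) x := by
  rw [res, res, ← ConcreteCategory.comp_apply, ← Functor.map_comp]
  rfl

theorem res_refl (N : X.Modules) {U : X.Opens} (x : (N.presheaf.obj (op U) : AddCommGrpCat.{u})) :
    res N le_rfl x = x := by
  rw [res, show (homOfLE (le_refl U)).op = 𝟙 (op U) from rfl, CategoryTheory.Functor.map_id]
  rfl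

theorem map_eq_res (N : X.Modules) {U V : X.Opens} (a : op U ⟶ op V)
    (x : (N.presheaf.obj (op U) : AddCommGrpCat.{u})) :
    N.presheaf.map a x = res N (leOfHom a.unop) x :=
  congrArg (fun t => N.presheaf.map t x) (Subsingleton.elim a (homOfLE (leOfHom a.unop)).op)

theorem map_map_map (N : X.Modules) {U V W Z : X.Opens} (a : op W ⟶ op Z) (b : op V ⟶ op W)
    (c : op U ⟶ op V) (h : Z ≤ U) (x : (N.presheaf.obj (op U) : AddCommGrpCat.{u})) :
    N.presheaf.map a (N.presheaf.map b (N.presheaf.map c x)) = res N h x := by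
  rw [map_eq_res, map_eq_res, map_eq_res, res_res, res_res]

theorem map_map (N : X.Modules) {U V W : X.Opens} (a : op V ⟶ op W) (b : op U ⟶ op V) (h : W ≤ U)
    (x : (N.presheaf.obj (op U) : AddCommGrpCat.{u})) :
    N.presheaf.map a (N.presheaf.map b x) = res N h x := by
  rw [map_eq_res, map_eq_res, res_res]

theorem app_res {N N' : X.Modules} (f : N ⟶ N') {U V : X.Opens} (h : V ≤ U)
    (x : (N.presheaf.obj (op U) : AddCommGrpCat.{u})) :
    f.app V (res N h x) = res N' h (f.app U x) := by
  have := congrArg (fun t => t x) ((Scheme.Modules.Hom.mapPresheaf f).naturality (homOfLE h).op)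
  exact this

theorem span_image_equiv {M M' : Type u} [AddCommGroup M] [AddCommGroup M'] [Module S M]
    [Module S M'] (e : M ≃ₗ[S] M') {s : Set M} (hs : Submodule.span S s = ⊤) :
    Submodule.span S (e '' s) = ⊤ := by
  rw [show (e '' s) = e.toLinearMap '' s from rfl, ← Submodule.map_span, hs, Submodule.map_top]
  exact LinearEquiv.range e

section Restriction

variable (φ : R →+* S) [IsOpenImmersion (Spec.map (CommRingCat.ofHom φ))]
  (q₀ : Spec (CommRingCat.of R) ⟶ X) [IsOpenImmersion q₀]
  (q : Spec (CommRingCat.of S) ⟶ X) [IsOpenImmersion q]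
  (h : Spec.map (CommRingCat.ofHom φ) ≫ q₀ = q)

/-- Restriction in two steps. -/
def chartIso (N : X.Modules) :
    (N.restrict q₀).restrict (Spec.map (CommRingCat.ofHom φ)) ≅ N.restrict q :=
  ((Scheme.Modules.restrictFunctorComp _ q₀).app N).symm ≪≫
    (Scheme.Modules.restrictFunctorCongr h).app N

/-- Restriction of sections between charts. -/
def chartRes (N : X.Modules) : Sec (N.restrict q₀) →ₛₗ[φ] Sec (N.restrict q) :=
  (secMap (chartIso φ q₀ q h N).hom).comp (resSec φ (N.restrict q₀))

include h in
omit [IsOpenImmersion (Spec.map (CommRingCat.ofHom φ))] in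
theorem image_le_image : q ''ᵁ ⊤ ≤ q₀ ''ᵁ ⊤ := by
  subst h
  rintro _ ⟨y, -, rfl⟩
  exact ⟨_, trivial, rfl⟩

theorem secX_chartRes (N : X.Modules) (x : Sec (N.restrict q₀)) :
    secX q N (chartRes φ q₀ q h N x) = res N (image_le_image φ q₀ q h) (secX q₀ N x) := by
  show (N.presheaf.map _) ((N.presheaf.map _) ((N.presheaf.map _) (secX q₀ N x))) = _
  exact map_map_map N _ _ _ _ _

theorem secMap_chartRes {N N' : X.Modules} (f : N ⟶ N') (x : Sec (N.restrict q₀)) :
    secMap ((Scheme.Modules.restrictFunctor q).map f) (chartRes φ q₀ q h N x) =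
      chartRes φ q₀ q h N' (secMap ((Scheme.Modules.restrictFunctor q₀).map f) x) := by
  apply (secX q N').injective
  rw [secX_chartRes]
  show f.app _ (secX q N (chartRes φ q₀ q h N x)) = res N' _ (f.app _ (secX q₀ N x))
  rw [secX_chartRes, app_res]

theorem span_chartRes {N : X.Modules} (hN : Scheme.Modules.IsInvertible N) :
    Submodule.span S (Set.range (chartRes φ q₀ q h N)) = ⊤ := by
  haveI := qc_of_invertible (invertible_restrict q₀ hN)
  haveI := qc_restrict φ (N.restrict q₀) (invertible_restrict q₀ hN)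
  have hs : Submodule.span S (Set.range (resSec φ (N.restrict q₀))) = ⊤ := span_adjSec _ _
  rw [show Set.range (chartRes φ q₀ q h N) = secIso (chartIso φ q₀ q h N) ''
      Set.range (resSec φ (N.restrict q₀)) from Set.range_comp (secIso (chartIso φ q₀ q h N))
        (resSec φ (N.restrict q₀))]
  exact span_image_equiv _ hs

end Restriction

section Square

variable (φ : R →+* S) (q : Spec (CommRingCat.of R) ⟶ X) [IsOpenImmersion q]
  (q' : Spec (CommRingCat.of S) ⟶ Y) [IsOpenImmersion q'] (g : Y ⟶ X)
  (h : Spec.map (CommRingCat.ofHom φ) ≫ q = q' ≫ g)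

/-- The pushforwards around the square. -/
def pushSquare :
    Scheme.Modules.pushforward q' ⋙ Scheme.Modules.pushforward g ≅
      Scheme.Modules.pushforward (Spec.map (CommRingCat.ofHom φ)) ⋙ Scheme.Modules.pushforward q :=
  Scheme.Modules.pushforwardComp q' g ≪≫ Scheme.Modules.pushforwardCongr h.symm ≪≫
    (Scheme.Modules.pushforwardComp _ _).symm

/-- Restriction followed by pullback. -/
def adjOne : Scheme.Modules.restrictFunctor q ⋙
    Scheme.Modules.pullback (Spec.map (CommRingCat.ofHom φ)) ⊣
      Scheme.Modules.pushforward (Spec.map (CommRingCat.ofHom φ)) ⋙ Scheme.Modules.pushforward q :=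
  (Scheme.Modules.restrictAdjunction q).comp
    (Scheme.Modules.pullbackPushforwardAdjunction _)

/-- Pullback followed by restriction. -/
def adjTwo : Scheme.Modules.pullback g ⋙ Scheme.Modules.restrictFunctor q' ⊣
      Scheme.Modules.pushforward (Spec.map (CommRingCat.ofHom φ)) ⋙ Scheme.Modules.pushforward q :=
  ((Scheme.Modules.pullbackPushforwardAdjunction g).comp
    (Scheme.Modules.restrictAdjunction q')).ofNatIsoRight (pushSquare φ q q' g h)

/-- Restriction commutes with pullback. -/
def squareIso (N : X.Modules) :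
    (Scheme.Modules.pullback (Spec.map (CommRingCat.ofHom φ))).obj (N.restrict q) ≅
      ((Scheme.Modules.pullback g).obj N).restrict q' :=
  ((adjOne φ q).leftAdjointUniq (adjTwo φ q q' g h)).app N

/-- Sections of a chart pull back. -/
def squareSec (N : X.Modules) :
    Sec (N.restrict q) →ₛₗ[φ] Sec (((Scheme.Modules.pullback g).obj N).restrict q') :=
  (secMap (squareIso φ q q' g h N).hom).comp
    (adjSec (Scheme.Modules.pullbackPushforwardAdjunction (Spec.map (CommRingCat.ofHom φ)))
      (N.restrict q))

include h in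
theorem image_le_preimage : q' ''ᵁ ⊤ ≤ g ⁻¹ᵁ (q ''ᵁ ⊤) := by
  rintro _ ⟨y, -, rfl⟩
  refine ⟨Spec.map (CommRingCat.ofHom φ) y, trivial, ?_⟩
  exact congrArg (fun f : Spec (CommRingCat.of S) ⟶ X => f.base y) h

theorem secX_squareSec (N : X.Modules) (x : Sec (N.restrict q)) :
    secX q' _ (squareSec φ q q' g h N x) = res _ (image_le_preimage φ q q' g h)
      (((Scheme.Modules.pullbackPushforwardAdjunction g).unit.app N).app (q ''ᵁ ⊤)
        (secX q N x)) := by
  set sp := Spec.map (CommRingCat.ofHom φ) with hsp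
  set η := (Scheme.Modules.pullbackPushforwardAdjunction sp).unit.app (N.restrict q) with hη
  set β := (squareIso φ q q' g h N).hom with hβ
  have key := Adjunction.unit_leftAdjointUniq_hom_app (adjOne φ q) (adjTwo φ q q' g h) N
  have key' := congrArg (fun t => t.app (q ''ᵁ ⊤) (secX q N x)) key
  have htop : (⊤ : (Spec (CommRingCat.of R)).Opens) ≤ q ⁻¹ᵁ (q ''ᵁ ⊤) := fun y _ => ⟨y, trivial, rfl⟩
  let y₀ : ((N.restrict q).presheaf.obj (op (q ⁻¹ᵁ (q ''ᵁ ⊤))) : AddCommGrpCat.{u}) :=
    res N (q.image_preimage_le (q ''ᵁ ⊤)) (secX q N x)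
  have hx : (toSec (N.restrict q)).symm x = res (N.restrict q) htop y₀ := by
    show secX q N x = N.presheaf.map _ (res N _ (secX q N x))
    exact ((map_map N _ _ le_rfl _).trans (res_refl N _)).symm
  show β.app ⊤ (η.app ⊤ ((toSec (N.restrict q)).symm x)) = _
  refine (congrArg (β.app ⊤) ((congrArg (η.app ⊤) hx).trans (app_res η htop y₀))).trans ?_
  refine (app_res β (U := sp ⁻¹ᵁ (q ⁻¹ᵁ (q ''ᵁ ⊤))) (V := ⊤) (fun y _ => htop trivial) _).trans ?_
  have key'' : β.app (sp ⁻¹ᵁ (q ⁻¹ᵁ (q ''ᵁ ⊤))) (η.app (q ⁻¹ᵁ (q ''ᵁ ⊤)) y₀) = _ := key'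
  rw [key'']
  show ((Scheme.Modules.pullback g).obj N).presheaf.map _
    (((Scheme.Modules.pullback g).obj N).presheaf.map _
      (((Scheme.Modules.pullback g).obj N).presheaf.map _
        (((Scheme.Modules.pullbackPushforwardAdjunction g).unit.app N).app (q ''ᵁ ⊤) _))) = _
  exact map_map_map _ _ _ _ _ _

theorem span_squareSec {N : X.Modules} (hN : Scheme.Modules.IsInvertible N) :
    Submodule.span S (Set.range (squareSec φ q q' g h N)) = ⊤ := by
  haveI := qc_of_invertible (invertible_restrict q hN)
  haveI := qc_of_invertible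
    ((invertible_restrict q hN).pullback (Spec.map (CommRingCat.ofHom φ)))
  have hs : Submodule.span S (Set.range
      (adjSec (Scheme.Modules.pullbackPushforwardAdjunction (Spec.map (CommRingCat.ofHom φ)))
        (N.restrict q))) = ⊤ := span_adjSec _ _
  rw [show Set.range (squareSec φ q q' g h N) = secIso (squareIso φ q q' g h N) '' Set.range
      (adjSec (Scheme.Modules.pullbackPushforwardAdjunction (Spec.map (CommRingCat.ofHom φ)))
        (N.restrict q)) from
    Set.range_comp (secIso (squareIso φ q q' g h N)) (adjSec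
      (Scheme.Modules.pullbackPushforwardAdjunction (Spec.map (CommRingCat.ofHom φ))) (N.restrict q))]
  exact span_image_equiv _ hs

end Square

end FLTAgent.JacRep.Dict
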