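import Fermat.Agent.JacRep.Dict.Square
import Fermat.Agent.JacRep.Dict.Pieces
import Fermat.Agent.JacRep.Ops.Basics

/-!
# The bundle of an invertible module on the relative curve

`bundleOf`: an invertible module on `C ×ₖ Spec R` gives the invertible modules of its sections on
the two pieces and the overlap, the restriction maps being localisations.  Isomorphic modules give
isomorphic bundles (`bundleOf_iso`).
-/

set_option autoImplicit false
set_option linter.style.haveILetI false

noncomputable section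

open CategoryTheory CategoryTheory.Limits AlgebraicGeometry AlgebraicGeometry.RelPicard
  NeronModelInfra

universe u

namespace FLTAgent.JacRep.Dict

variable {k : Type u} [Field k] {Cv : Cover k} {C : Scheme.{u}}
  {c : C ⟶ Spec (CommRingCat.of k)} {ε : SchemeHomOver (𝟙 (Spec (CommRingCat.of k))) c}
  (W : Realization Cv c ε) (R : Type u) [CommRing R] [Algebra k R]
  (L : (pullback c (specStr k R)).Modules)

/-- Sections on the first chart. -/
abbrev Sec₀ : Type u := Sec (R := Cv.B₀ R) (L.restrict (q₀ W R))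

/-- Sections on the second chart. -/
abbrev Sec₁ : Type u := Sec (R := Cv.B₁ R) (L.restrict (q₁ W R))

/-- Sections on the overlap. -/
abbrev SecA : Type u := Sec (R := Cv.B R) (L.restrict (qA W R))

/-- Restriction from the first chart. -/
def res₀ : Sec₀ W R L →ₛₗ[Cv.resB₀ R] SecA W R L :=
  haveI := isOpenImmersion_resB₀ R W
  chartRes (Cv.resB₀ R) (q₀ W R) (qA W R) (resB₀_q₀ W R) L

/-- Restriction from the second chart. -/
def res₁ : Sec₁ W R L →ₛₗ[Cv.resB₁ R] SecA W R L :=
  haveI := isOpenImmersion_resB₁ R W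
  chartRes (Cv.resB₁ R) (q₁ W R) (qA W R) (resB₁_q₁ W R) L

theorem secX_res₀ (h : qA W R ''ᵁ ⊤ ≤ q₀ W R ''ᵁ ⊤) (x : Sec₀ W R L) :
    secX (qA W R) L (res₀ W R L x) = res L h (secX (q₀ W R) L x) :=
  haveI := isOpenImmersion_resB₀ R W
  secX_chartRes (Cv.resB₀ R) (q₀ W R) (qA W R) (resB₀_q₀ W R) L x

theorem secX_res₁ (h : qA W R ''ᵁ ⊤ ≤ q₁ W R ''ᵁ ⊤) (x : Sec₁ W R L) :
    secX (qA W R) L (res₁ W R L x) = res L h (secX (q₁ W R) L x) :=
  haveI := isOpenImmersion_resB₁ R W
  secX_chartRes (Cv.resB₁ R) (q₁ W R) (qA W R) (resB₁_q₁ W R) L x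

/-- The bundle of an invertible module. -/
def bundleOf (hL : Scheme.Modules.IsInvertible L) : Bundle Cv R :=
  haveI := invertible_sec (invertible_restrict (q₀ W R) hL)
  haveI := invertible_sec (invertible_restrict (q₁ W R) hL)
  haveI := invertible_sec (invertible_restrict (qA W R) hL)
  Bundle.ofSpan (Sec₀ W R L) (Sec₁ W R L) (SecA W R L) (res₀ W R L) (res₁ W R L)
    (haveI := isOpenImmersion_resB₀ R W
     span_chartRes (Cv.resB₀ R) (q₀ W R) (qA W R) (resB₀_q₀ W R) hL)
    (haveI := isOpenImmersion_resB₁ R W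
     span_chartRes (Cv.resB₁ R) (q₁ W R) (qA W R) (resB₁_q₁ W R) hL)

theorem bundleOf_iso {L L' : (pullback c (specStr k R)).Modules}
    (hL : Scheme.Modules.IsInvertible L) (hL' : Scheme.Modules.IsInvertible L') (e : L ≅ L') :
    (bundleOf W R L hL).Iso (bundleOf W R L' hL') := by
  haveI := isOpenImmersion_resB₀ R W
  haveI := isOpenImmersion_resB₁ R W
  exact ⟨secIso ((Scheme.Modules.restrictFunctor (q₀ W R)).mapIso e),
    secIso ((Scheme.Modules.restrictFunctor (q₁ W R)).mapIso e),
    secIso ((Scheme.Modules.restrictFunctor (qA W R)).mapIso e),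
    fun m => secMap_chartRes (Cv.resB₀ R) (q₀ W R) (qA W R) (resB₀_q₀ W R) e.hom m,
    fun m => secMap_chartRes (Cv.resB₁ R) (q₁ W R) (qA W R) (resB₁_q₁ W R) e.hom m⟩

end FLTAgent.JacRep.Dict
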